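import Mathlib

/-!
# Elements of finite order of `SL(2, ℤ)` are killed by `12`
-/

set_option autoImplicit false

open scoped MatrixGroups

namespace Fermat.Agent.S16Aux.Lo

/-- Cayley-Hamilton for `2 × 2` matrices of determinant one. -/
theorem mat_sq_eq (A : Matrix (Fin 2) (Fin 2) ℤ) (h : A.det = 1) :
    A * A = A.trace • A - 1 := by
  rw [Matrix.det_fin_two] at h
  ext i j
  fin_cases i <;> fin_cases j <;>
    simp only [Matrix.mul_apply, Fin.sum_univ_two, Matrix.trace_fin_two, Matrix.sub_apply,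
      Matrix.smul_apply, smul_eq_mul, Fin.zero_eta, Fin.mk_one, Fin.isValue, Matrix.one_apply_eq,
      ne_eq, zero_ne_one, one_ne_zero, not_false_eq_true, Matrix.one_apply_ne, sub_zero] <;>
    first | linear_combination -h | ring

theorem mat_pow_add_two (A : Matrix (Fin 2) (Fin 2) ℤ) (h : A.det = 1) (m : ℕ) :
    A ^ (m + 2) = A.trace • A ^ (m + 1) - A ^ m := by
  rw [pow_add, pow_two, mat_sq_eq A h, mul_sub, mul_one, Matrix.mul_smul, pow_succ]

theorem trace_pow_add_two (A : Matrix (Fin 2) (Fin 2) ℤ) (h : A.det = 1) (m : ℕ) :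
    (A ^ (m + 2)).trace = A.trace * (A ^ (m + 1)).trace - (A ^ m).trace := by
  rw [mat_pow_add_two A h, Matrix.trace_sub, Matrix.trace_smul, smul_eq_mul]

/-- if `|tr A| ≥ 3` the traces of the powers grow. -/
theorem abs_trace_pow_growth (A : Matrix (Fin 2) (Fin 2) ℤ) (h : A.det = 1)
    (ht : 3 ≤ |A.trace|) (m : ℕ) :
    |(A ^ m).trace| < |(A ^ (m + 1)).trace| ∧ 2 ≤ |(A ^ m).trace| := by
  induction m with
  | zero =>
    simp only [pow_zero, zero_add, pow_one, Matrix.trace_one, Fintype.card_fin]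
    norm_num
    omega
  | succ m ih =>
    obtain ⟨h1, h2⟩ := ih
    refine ⟨?_, by omega⟩
    rw [trace_pow_add_two A h]
    have h3 : |A.trace * (A ^ (m + 1)).trace| - |(A ^ m).trace| ≤
        |A.trace * (A ^ (m + 1)).trace - (A ^ m).trace| := abs_sub_abs_le_abs_sub _ _
    rw [abs_mul] at h3
    have h4 : 3 * |(A ^ (m + 1)).trace| ≤ |A.trace| * |(A ^ (m + 1)).trace| :=
      mul_le_mul_of_nonneg_right ht (abs_nonneg _)
    omega

theorem abs_trace_le_two_of_pow_eq_one (A : Matrix (Fin 2) (Fin 2) ℤ) (h : A.det = 1) {m : ℕ}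
    (hm : 0 < m) (hA : A ^ m = 1) : |A.trace| ≤ 2 := by
  by_contra hcon
  have ht : 3 ≤ |A.trace| := by omega
  obtain ⟨k, rfl⟩ : ∃ k, m = k + 1 := ⟨m - 1, by omega⟩
  have h1 := abs_trace_pow_growth A h ht k
  rw [hA] at h1
  simp only [Matrix.trace_one, Fintype.card_fin] at h1
  norm_num at h1
  omega

/-- unipotent matrices of finite order are trivial. -/
theorem eq_one_of_trace_eq_two (A : Matrix (Fin 2) (Fin 2) ℤ) (h : A.det = 1)
    (ht : A.trace = 2) {m : ℕ} (hm : 0 < m) (hA : A ^ m = 1) : A = 1 := by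
  have key : ∀ k : ℕ, A ^ k = (k : ℤ) • (A - 1) + 1 := by
    intro k
    induction k using Nat.strong_induction_on with
    | _ k ih =>
      match k with
      | 0 => simp
      | 1 => simp
      | (k + 2) =>
        rw [mat_pow_add_two A h, ih (k + 1) (by omega), ih k (by omega), ht]
        push_cast
        module
  have h1 := key m
  rw [hA] at h1
  have h2 : (m : ℤ) • (A - 1) = 0 := by
    have : (m : ℤ) • (A - 1) + 1 = 0 + 1 := by rw [← h1, zero_add]
    exact add_right_cancel this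
  have h3 : A - 1 = 0 := by
    rcases smul_eq_zero.mp h2 with h | h
    · exact absurd h (by exact_mod_cast hm.ne')
    · exact h
  exact sub_eq_zero.mp h3

theorem mat_pow_twelve (A : Matrix (Fin 2) (Fin 2) ℤ) (h : A.det = 1) {m : ℕ}
    (hm : 0 < m) (hA : A ^ m = 1) : A ^ 12 = 1 := by
  have ht := abs_trace_le_two_of_pow_eq_one A h hm hA
  have hsq := mat_sq_eq A h
  rw [abs_le] at ht
  obtain ⟨h1, h2⟩ := ht
  have hcases : A.trace = -2 ∨ A.trace = -1 ∨ A.trace = 0 ∨ A.trace = 1 ∨ A.trace = 2 := by omega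
  rcases hcases with ht | ht | ht | ht | ht
  · -- `-A` is unipotent
    have hdet : (-A).det = 1 := by
      rw [Matrix.det_neg, h]; simp
    have htr : (-A).trace = 2 := by rw [Matrix.trace_neg, ht]; norm_num
    have hpow : (-A) ^ (2 * m) = 1 := by
      rw [pow_mul, neg_sq, ← pow_mul, mul_comm, pow_mul, hA, one_pow]
    have := eq_one_of_trace_eq_two (-A) hdet htr (by omega) hpow
    have hA' : A = -1 := by rw [← this, neg_neg]
    rw [hA']
    exact Even.neg_one_pow (by decide)
  · -- `A ^ 3 = 1`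
    rw [ht] at hsq
    have h3 : A ^ 3 = 1 := by
      rw [pow_succ, pow_two, hsq, sub_mul, one_mul, Matrix.smul_mul, hsq]
      module
    rw [show 12 = 3 * 4 by norm_num, pow_mul, h3, one_pow]
  · rw [ht] at hsq
    have h2' : A ^ 2 = -1 := by rw [pow_two, hsq]; simp
    rw [show 12 = 2 * 6 by norm_num, pow_mul, h2']
    exact Even.neg_one_pow (by decide)
  · rw [ht] at hsq
    have h3 : A ^ 3 = -1 := by
      rw [pow_succ, pow_two, hsq, sub_mul, one_mul, Matrix.smul_mul, hsq]
      module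
    rw [show 12 = 3 * 4 by norm_num, pow_mul, h3]
    exact Even.neg_one_pow (by decide)
  · rw [eq_one_of_trace_eq_two A h ht hm hA, one_pow]

/-- An element of finite order of `SL(2, ℤ)` is killed by `12`. -/
theorem pow_twelve_eq_one_of_isOfFinOrder (γ : SL(2, ℤ)) (h : IsOfFinOrder γ) : γ ^ 12 = 1 := by
  obtain ⟨m, hm, hγ⟩ := isOfFinOrder_iff_pow_eq_one.mp h
  apply Subtype.ext
  rw [Matrix.SpecialLinearGroup.coe_pow, Matrix.SpecialLinearGroup.coe_one]
  refine mat_pow_twelve _ γ.2 hm ?_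
  rw [← Matrix.SpecialLinearGroup.coe_pow, hγ, Matrix.SpecialLinearGroup.coe_one]

end Fermat.Agent.S16Aux.Lo
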