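import Mathlib
import Fermat.Prelude.Def_ModularCurve_PeriodHomPair
import Fermat.Prelude.Sol.S_ModularForm_heckeT_slash_eq_self_of_mem_Gamma0

/-!
# S16 (lower bound): Hecke correspondences on `Hom(Γ₀(N), A)`, as a relation
-/

set_option autoImplicit false

open CongruenceSubgroup ModularCurve ModularCurve.Period Matrix.SpecialLinearGroup
open scoped MatrixGroups
open P2MW.S_ModularForm_heckeT_slash_eq_self_of_mem_Gamma0.ModularForm.HeckeSlashInvariance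

namespace Fermat.Agent.S16Aux.Lo

/-- `χ'` is the image of `χ` under the Hecke correspondence with representatives `rep`. -/
def IsHeckeImg {N : ℕ} {ι : Type*} [Fintype ι] (rep : ι → GL (Fin 2) ℝ) {A : Type*}
    [AddCommGroup A] (χ χ' : Additive (Gamma0 N) →+ A) : Prop :=
  ∀ (γ : Gamma0 N) (σ : Equiv.Perm ι) (γ' : ι → Gamma0 N),
    (∀ i, rep i * mapGL ℝ (γ : SL(2, ℤ)) = mapGL ℝ (γ' i : SL(2, ℤ)) * rep (σ i)) →
    χ' (Additive.ofMul γ) = ∑ i, χ (Additive.ofMul (γ' i))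

namespace IsHeckeImg

variable {N : ℕ} {ι : Type*} [Fintype ι] {rep : ι → GL (Fin 2) ℝ} {A : Type*} [AddCommGroup A]
  {χ χ' φ φ' : Additive (Gamma0 N) →+ A}

theorem add (h : IsHeckeImg rep χ χ') (h' : IsHeckeImg rep φ φ') :
    IsHeckeImg rep (χ + φ) (χ' + φ') := by
  intro γ σ γ' hγ
  simp only [AddMonoidHom.add_apply, h γ σ γ' hγ, h' γ σ γ' hγ, Finset.sum_add_distrib]

theorem sub (h : IsHeckeImg rep χ χ') (h' : IsHeckeImg rep φ φ') :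
    IsHeckeImg rep (χ - φ) (χ' - φ') := by
  intro γ σ γ' hγ
  simp only [AddMonoidHom.sub_apply, h γ σ γ' hγ, h' γ σ γ' hγ, Finset.sum_sub_distrib]

/-- The matrix `diag(1, -1)`. -/
noncomputable def Jmat : GL (Fin 2) ℝ :=
  Matrix.GeneralLinearGroup.mkOfDetNeZero !![1, 0; 0, -1] (by simp)

theorem Jmat_mul_self : Jmat * Jmat = 1 := by
  ext i j
  fin_cases i <;> fin_cases j <;> simp [Jmat, Matrix.mul_apply, Fin.sum_univ_two]

theorem mapGL_jConjSL (γ : SL(2, ℤ)) :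
    (mapGL ℝ (jConjSL γ) : GL (Fin 2) ℝ) = Jmat * mapGL ℝ γ * Jmat := by
  ext i j
  fin_cases i <;> fin_cases j <;>
    simp [Jmat, Matrix.mul_apply, Fin.sum_univ_two, Matrix.vecMul, dotProduct]

theorem charInvolution (R : Type*) [Semiring R] [Module R A] (τ : Equiv.Perm ι)
    (δ : ι → Gamma0 N)
    (hτ : ∀ i, Jmat * rep i * Jmat = mapGL ℝ (δ i : SL(2, ℤ)) * rep (τ i))
    (h : IsHeckeImg rep χ χ') :
    IsHeckeImg rep (charInvolution N R A χ) (charInvolution N R A χ') := by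
  intro γ σ γ' hγ
  simp only [charInvolution_apply, toMul_ofMul]
  have key : ∀ i, rep (τ i) * mapGL ℝ ((jConjGamma0 N γ : Gamma0 N) : SL(2, ℤ))
      = mapGL ℝ (((δ i)⁻¹ * jConjGamma0 N (γ' i) * δ (σ i) : Gamma0 N) : SL(2, ℤ))
        * rep (τ (σ i)) := by
    intro i
    have h1 : (Jmat * rep i * Jmat) * (Jmat * mapGL ℝ (γ : SL(2, ℤ)) * Jmat)
        = (Jmat * mapGL ℝ (γ' i : SL(2, ℤ)) * Jmat) * (Jmat * rep (σ i) * Jmat) := by
      have e1 : (Jmat * rep i * Jmat) * (Jmat * mapGL ℝ (γ : SL(2, ℤ)) * Jmat)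
          = Jmat * (rep i * (Jmat * Jmat) * mapGL ℝ (γ : SL(2, ℤ))) * Jmat := by group
      have e2 : (Jmat * mapGL ℝ (γ' i : SL(2, ℤ)) * Jmat) * (Jmat * rep (σ i) * Jmat)
          = Jmat * (mapGL ℝ (γ' i : SL(2, ℤ)) * (Jmat * Jmat) * rep (σ i)) * Jmat := by group
      rw [e1, e2, Jmat_mul_self, mul_one, mul_one, hγ i]
    rw [hτ i, hτ (σ i), ← mapGL_jConjSL, ← mapGL_jConjSL] at h1
    simp only [jConjGamma0_coe, Subgroup.coe_mul, Subgroup.coe_inv, map_mul, map_inv]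
    have h2 : rep (τ i) * mapGL ℝ (jConjSL (γ : SL(2, ℤ)))
        = (mapGL ℝ (δ i : SL(2, ℤ)))⁻¹ * ((mapGL ℝ (δ i : SL(2, ℤ)) * rep (τ i))
          * mapGL ℝ (jConjSL (γ : SL(2, ℤ)))) := by group
    rw [h2, h1]
    group
  have h3 := h (jConjGamma0 N γ) ((τ.symm.trans σ).trans τ)
    (fun k => (δ (τ.symm k))⁻¹ * jConjGamma0 N (γ' (τ.symm k)) * δ (σ (τ.symm k))) (by
      intro k
      have := key (τ.symm k)
      simpa using this)
  rw [h3, ← Equiv.sum_comp τ]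
  simp only [Equiv.symm_apply_apply, ofMul_mul, ofMul_inv, map_add, map_neg]
  rw [Finset.sum_add_distrib, Finset.sum_add_distrib, Finset.sum_neg_distrib,
    Equiv.sum_comp σ (fun i => χ (Additive.ofMul (δ i)))]
  abel

end IsHeckeImg

/-! ### Integer equations from a matrix identity -/

theorem entries_of_mul_eq {a b d a' b' d' : ℤ} {R R' : GL (Fin 2) ℝ}
    (hR : (R : Matrix (Fin 2) (Fin 2) ℝ) = !![(a : ℝ), (b : ℝ); 0, (d : ℝ)])
    (hR' : (R' : Matrix (Fin 2) (Fin 2) ℝ) = !![(a' : ℝ), (b' : ℝ); 0, (d' : ℝ)])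
    {g g' : SL(2, ℤ)} (h : R * mapGL ℝ g = mapGL ℝ g' * R') :
    a * g 0 0 + b * g 1 0 = g' 0 0 * a' ∧ d * g 1 1 = g' 1 0 * b' + g' 1 1 * d' := by
  have h0 := congrArg (fun M : GL (Fin 2) ℝ => (M : Matrix (Fin 2) (Fin 2) ℝ)) h
  simp only [Matrix.GeneralLinearGroup.coe_mul, hR, hR'] at h0
  constructor
  · have := congrFun (congrFun h0 0) 0
    simp [Matrix.mul_apply, Fin.sum_univ_two] at this
    exact_mod_cast this
  · have := congrFun (congrFun h0 1) 1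
    simp [Matrix.mul_apply, Fin.sum_univ_two] at this
    exact_mod_cast this

/-! ### The two families of representatives -/

section reps

open ModularForm

/-- Representatives for `U_q`. -/
noncomputable def repU (q : ℕ) (x : ZMod q) : GL (Fin 2) ℝ := heckeMatrix q x.val

theorem repU_val (q : ℕ) [NeZero q] (x : ZMod q) :
    (repU q x : Matrix (Fin 2) (Fin 2) ℝ) = !![((1 : ℤ) : ℝ), ((x.val : ℤ) : ℝ); 0, ((q : ℤ) : ℝ)] := by
  rw [repU, val_heckeMatrix (NeZero.ne q)]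
  simp

/-- diagonal entries of `heckeRep`. -/
def repA (ℓ : ℕ) (x : OnePoint (ZMod ℓ)) : ℤ := x.elim (ℓ : ℤ) (fun _ => 1)
/-- upper right entry of `heckeRep`. -/
def repB (ℓ : ℕ) (x : OnePoint (ZMod ℓ)) : ℤ := x.elim 0 (fun j => (j.val : ℤ))
/-- diagonal entries of `heckeRep`. -/
def repD (ℓ : ℕ) (x : OnePoint (ZMod ℓ)) : ℤ := x.elim 1 (fun _ => (ℓ : ℤ))

theorem heckeRep_val (ℓ : ℕ) [NeZero ℓ] (x : OnePoint (ZMod ℓ)) :
    (heckeRep ℓ x : Matrix (Fin 2) (Fin 2) ℝ)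
      = !![(repA ℓ x : ℝ), (repB ℓ x : ℝ); 0, (repD ℓ x : ℝ)] := by
  induction x using OnePoint.rec with
  | infty =>
    show (heckeDiagMatrix ℓ : Matrix (Fin 2) (Fin 2) ℝ) = _
    rw [val_heckeDiagMatrix (NeZero.ne ℓ)]
    simp [repA, repB, repD]
  | coe j =>
    show (heckeMatrix ℓ j.val : Matrix (Fin 2) (Fin 2) ℝ) = _
    rw [val_heckeMatrix (NeZero.ne ℓ)]
    simp [repA, repB, repD]

theorem exists_perm_T {N ℓ : ℕ} [Fact ℓ.Prime] (hℓN : ¬ ℓ ∣ N) (γ : Gamma0 N) :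
    ∃ (σ : Equiv.Perm (OnePoint (ZMod ℓ))) (γ' : OnePoint (ZMod ℓ) → Gamma0 N),
      ∀ i, heckeRep ℓ i * mapGL ℝ (γ : SL(2, ℤ)) = mapGL ℝ (γ' i : SL(2, ℤ)) * heckeRep ℓ (σ i) := by
  have hcN : (N : ℤ) ∣ (γ : SL(2, ℤ)) 1 0 :=
    (ZMod.intCast_zmod_eq_zero_iff_dvd _ _).mp (Gamma0_mem.mp γ.2)
  choose g' hg' hmul using heckeRep_mul hℓN (γ : SL(2, ℤ)) hcN
  exact ⟨MulAction.toPerm (redMatrix ℓ (γ : SL(2, ℤ))),
    fun x => ⟨g' x, Gamma0_mem.mpr ((ZMod.intCast_zmod_eq_zero_iff_dvd _ _).mpr (hg' x))⟩, hmul⟩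

theorem exists_perm_U {N q : ℕ} [NeZero q] (hqN : q ∣ N) (γ : Gamma0 N) :
    ∃ (σ : Equiv.Perm (ZMod q)) (γ' : ZMod q → Gamma0 N),
      ∀ i, repU q i * mapGL ℝ (γ : SL(2, ℤ)) = mapGL ℝ (γ' i : SL(2, ℤ)) * repU q (σ i) := by
  have hcN : (N : ℤ) ∣ (γ : SL(2, ℤ)) 1 0 :=
    (ZMod.intCast_zmod_eq_zero_iff_dvd _ _).mp (Gamma0_mem.mp γ.2)
  have hc : (q : ℤ) ∣ (γ : SL(2, ℤ)) 1 0 := (Int.natCast_dvd_natCast.mpr hqN).trans hcN
  choose g' hg' hmul using heckeMatrix_mul_of_dvd (γ : SL(2, ℤ)) hc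
  refine ⟨affinePerm (γ : SL(2, ℤ)) ((ZMod.intCast_zmod_eq_zero_iff_dvd _ _).mpr hc),
    fun x => ⟨g' x, ?_⟩, hmul⟩
  rw [Gamma0_mem, hg']
  push_cast
  rw [Gamma0_mem.mp γ.2, mul_zero]

/-- `T ^ m` as an element of `Γ₀(N)`. -/
def Tpow (N : ℕ) (m : ℤ) : Gamma0 N :=
  ⟨ModularGroup.T ^ m, by rw [Gamma0_mem, ModularGroup.coe_T_zpow]; simp⟩

theorem mapGL_Tpow_val (N : ℕ) (m : ℤ) :
    ((mapGL ℝ ((Tpow N m : Gamma0 N) : SL(2, ℤ)) : GL (Fin 2) ℝ) : Matrix (Fin 2) (Fin 2) ℝ)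
      = !![1, (m : ℝ); 0, 1] := by
  have h : ∀ i j, ((mapGL ℝ ((Tpow N m : Gamma0 N) : SL(2, ℤ)) : GL (Fin 2) ℝ) :
      Matrix (Fin 2) (Fin 2) ℝ) i j = (((ModularGroup.T ^ m : SL(2, ℤ)) i j : ℤ) : ℝ) :=
    fun i j => mapGL_apply _ i j
  ext i j
  rw [h, ModularGroup.coe_T_zpow]
  fin_cases i <;> fin_cases j <;> simp

theorem Jmat_val : (IsHeckeImg.Jmat : Matrix (Fin 2) (Fin 2) ℝ) = !![1, 0; 0, -1] := rfl

theorem Jmat_conj_of_eq {N : ℕ} {R R' : GL (Fin 2) ℝ} {a b b' d m : ℤ}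
    (hR : (R : Matrix (Fin 2) (Fin 2) ℝ) = !![(a : ℝ), (b : ℝ); 0, (d : ℝ)])
    (hR' : (R' : Matrix (Fin 2) (Fin 2) ℝ) = !![(a : ℝ), (b' : ℝ); 0, (d : ℝ)])
    (h : -b = b' + m * d) :
    IsHeckeImg.Jmat * R * IsHeckeImg.Jmat
      = mapGL ℝ ((Tpow N m : Gamma0 N) : SL(2, ℤ)) * R' := by
  apply Units.ext
  rw [Matrix.GeneralLinearGroup.coe_mul, Matrix.GeneralLinearGroup.coe_mul,
    Matrix.GeneralLinearGroup.coe_mul, hR, hR', mapGL_Tpow_val, Jmat_val]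
  have h' : -(b : ℝ) = b' + m * d := by exact_mod_cast h
  ext i j
  fin_cases i <;> fin_cases j <;> simp [Matrix.mul_apply, Fin.sum_univ_two, h']

/-- the exponent of `T` in `J α_x J = T ^ m α_{-x}`. -/
def negExp {q : ℕ} (x : ZMod q) : ℤ := if x = 0 then 0 else -1

theorem neg_val_eq {q : ℕ} [NeZero q] (x : ZMod q) :
    -(x.val : ℤ) = ((-x).val : ℤ) + negExp x * (q : ℤ) := by
  rw [ZMod.neg_val, negExp]
  split_ifs with h
  · simp [h]
  · have : x.val ≤ q := (ZMod.val_lt x).le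
    push_cast [Nat.cast_sub this]
    ring

theorem Jmat_conj_repU {N q : ℕ} [NeZero q] (x : ZMod q) :
    IsHeckeImg.Jmat * repU q x * IsHeckeImg.Jmat
      = mapGL ℝ ((Tpow N (negExp x) : Gamma0 N) : SL(2, ℤ)) * repU q (-x) :=
  Jmat_conj_of_eq (repU_val q x) (repU_val q (-x)) (neg_val_eq x)

/-- negation on `ℙ¹(𝔽_ℓ)`. -/
def negPerm (ℓ : ℕ) : Equiv.Perm (OnePoint (ZMod ℓ)) := Equiv.optionCongr (Equiv.neg (ZMod ℓ))

theorem Jmat_conj_heckeRep {N ℓ : ℕ} [NeZero ℓ] (x : OnePoint (ZMod ℓ)) :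
    IsHeckeImg.Jmat * heckeRep ℓ x * IsHeckeImg.Jmat
      = mapGL ℝ ((Tpow N (x.elim 0 negExp) : Gamma0 N) : SL(2, ℤ)) * heckeRep ℓ (negPerm ℓ x) := by
  induction x using OnePoint.rec with
  | infty =>
    exact Jmat_conj_of_eq (heckeRep_val ℓ _) (heckeRep_val ℓ (OnePoint.infty))
      (by simp [repB, repD])
  | coe j =>
    exact Jmat_conj_of_eq (heckeRep_val ℓ _) (heckeRep_val ℓ (((-j : ZMod ℓ)) : OnePoint (ZMod ℓ)))
      (neg_val_eq j)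

theorem IsHeckeImg.charInvolution_T {N ℓ : ℕ} [NeZero ℓ] {A : Type*} [AddCommGroup A]
    (R : Type*) [Semiring R] [Module R A] {χ χ' : Additive (Gamma0 N) →+ A}
    (h : IsHeckeImg (heckeRep ℓ) χ χ') :
    IsHeckeImg (heckeRep ℓ) (ModularCurve.Period.charInvolution N R A χ)
      (ModularCurve.Period.charInvolution N R A χ') :=
  h.charInvolution R (negPerm ℓ) _ Jmat_conj_heckeRep

theorem IsHeckeImg.charInvolution_U {N q : ℕ} [NeZero q] {A : Type*} [AddCommGroup A]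
    (R : Type*) [Semiring R] [Module R A] {χ χ' : Additive (Gamma0 N) →+ A}
    (h : IsHeckeImg (repU q) χ χ') :
    IsHeckeImg (repU q) (ModularCurve.Period.charInvolution N R A χ)
      (ModularCurve.Period.charInvolution N R A χ') :=
  h.charInvolution R (Equiv.neg _) _ Jmat_conj_repU

end reps

end Fermat.Agent.S16Aux.Lo
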