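import Fermat.Agent.S16.Lo.Period
import Fermat.Agent.S16.Lo.HeckeImg

/-!
# S16 (H1a): Hecke equivariance of the period map, in the `IsHeckeImg` form
-/

set_option autoImplicit false

open CongruenceSubgroup ModularCurve ModularCurve.Period Matrix.SpecialLinearGroup
open scoped MatrixGroups
open P2MW.S_ModularForm_heckeT_slash_eq_self_of_mem_Gamma0.ModularForm.HeckeSlashInvariance

namespace Fermat.Agent.S16Aux.Lo

theorem isHeckeImg_periodMap_T {N ℓ : ℕ} [NeZero N] (hℓ : ℓ.Prime) (hℓN : ¬ ℓ ∣ N)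
    (f : CuspForm (Gamma0 N) 2) [Fact ℓ.Prime] :
    IsHeckeImg (heckeRep ℓ) (periodMap N f) (periodMap N (CuspForm.heckeTLin 2 hℓ hℓN f)) :=
  fun γ σ γ' h => periodMap_heckeT hℓ hℓN f γ σ γ' h

theorem isHeckeImg_periodMap_U {N q : ℕ} [NeZero N] [NeZero q] (hqN : q ∣ N)
    (f : CuspForm (Gamma0 N) 2) :
    IsHeckeImg (repU q) (periodMap N f) (periodMap N (CuspForm.heckeULin 2 hqN f)) :=
  fun γ σ γ' h => periodMap_heckeU hqN f γ σ γ' h

end Fermat.Agent.S16Aux.Lo
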