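import Fermat.Agent.S16.Lo.MainAux
import Fermat.Agent.S16.Lo.PeriodImg
import Fermat.Agent.S16.Lo.FinOrder

/-!
# S16: THM-L (lower bound)
-/

set_option autoImplicit false

namespace Fermat.Agent.S16Aux

theorem thmL (p : ℕ) [Fact p.Prime] : ThmL p :=
  Lo.thmL_of p (fun _ _ hℓ hℓp f => Lo.isHeckeImg_periodMap_T hℓ hℓp f)
    (fun _ _ hq f => Lo.isHeckeImg_periodMap_U hq f) Lo.pow_twelve_eq_one_of_isOfFinOrder

end Fermat.Agent.S16Aux
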