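import Mathlib
import Fermat.Agent.S21.Bound

/-!
# S16 (H3), abstract part: every pair in `Z_ℂ` comes from a cocycle; integral lifts of pairs
-/

set_option autoImplicit false

open Module Fermat.Agent.DimAux Fermat.Agent.S21Aux

namespace Fermat.Agent.S16Aux.Lo

noncomputable section

section surj

variable {G : Type*} [Group G] {X : Type*} [Fintype X] [DecidableEq X] [MulAction G X]

/-- If the dimension bound of `S21/Bound` is an equality (two `T`-orbits), every admissible pair
is the pair of values at `S`, `U` of a cocycle `β φ + d v`. -/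
theorem exists_cocycle_of_pair {W : Type*} [AddCommGroup W] [Module ℂ W] [Module.Finite ℂ W]
    (β : W →ₗ[ℂ] (G → X → ℂ)) (hβ : ∀ φ, IsCocycle (β φ))
    {S U T : G} (hUST : U = S * T) (hgen : Subgroup.closure {S, U} = ⊤)
    (hS : ∀ x : X, S ^ 2 • x = x) (hU3 : ∀ x : X, U ^ 3 • x = x)
    (hβS : ∀ φ, β φ (S ^ 2) = 0) (hβU : ∀ φ, β φ (U ^ 3) = 0)
    [MulAction.IsPretransitive G X] (x₀ : X) (hTx : T • x₀ = x₀) (hSx : S • x₀ ≠ x₀)
    (hβT : ∀ φ, β φ T x₀ = 0)
    (hinj : ∀ φ v, (∀ g, β φ g + (Rop g v - v) = 0) → φ = 0)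
    (hdim : Fintype.card X ≤ finrank ℂ W + orb (MulAction.toPerm S : Equiv.Perm X)
      + orb (MulAction.toPerm U : Equiv.Perm X))
    (a b : X → ℂ) (ha : a ∈ Kn (X := X) S 2) (hb : b ∈ Kn (X := X) U 3) (hab : b x₀ = a x₀) :
    ∃ (φ : W) (v : X → ℂ), β φ S + (Rop S v - v) = a ∧ β φ U + (Rop U v - v) = b := by
  let c : W × (X → ℂ) → G → X → ℂ := fun p g => β p.1 g + (Rop g p.2 - p.2)
  have hc : ∀ p, IsCocycle (c p) := fun p => (hβ p.1).add (isCocycle_cobdry p.2)
  let ev : G → (W × (X → ℂ)) →ₗ[ℂ] (X → ℂ) := fun g =>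
    ((LinearMap.proj g : (G → X → ℂ) →ₗ[ℂ] (X → ℂ)).comp β).comp (LinearMap.fst ℂ W (X → ℂ))
      + ((Rop g : Module.End ℂ (X → ℂ)) - 1).comp (LinearMap.snd ℂ W (X → ℂ))
  have hev : ∀ g p, ev g p = c p g := by
    intro g p
    simp [ev, c]
  have hzero : ∀ p, c p S = 0 → c p U = 0 → ∀ g, c p g = 0 := by
    intro p h1 h2
    apply (hc p).eq_zero_of_closure hgen
    rintro g (rfl | rfl)
    · exact h1
    · exact h2
  have hcS : ∀ p, c p S ∈ Kn (X := X) S 2 := by
    intro p
    apply (hc p).mem_Kn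
    show β p.1 (S ^ 2) + (Rop (S ^ 2) p.2 - p.2) = 0
    rw [hβS, Rop_eq_one_of_trivial hS]; simp
  have hcU : ∀ p, c p U ∈ Kn (X := X) U 3 := by
    intro p
    apply (hc p).mem_Kn
    show β p.1 (U ^ 3) + (Rop (U ^ 3) p.2 - p.2) = 0
    rw [hβU, Rop_eq_one_of_trivial hU3]; simp
  -- the target
  let lam : ((X → ℂ) × (X → ℂ)) →ₗ[ℂ] ℂ :=
    (LinearMap.proj x₀).comp (LinearMap.snd ℂ (X → ℂ) (X → ℂ))
      - (LinearMap.proj x₀).comp (LinearMap.fst ℂ (X → ℂ) (X → ℂ))
  have hlam : ∀ q : (X → ℂ) × (X → ℂ), lam q = q.2 x₀ - q.1 x₀ := fun q => rfl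
  let K : Submodule ℂ ((X → ℂ) × (X → ℂ)) := (Kn (X := X) S 2).prod (Kn (X := X) U 3)
  let Z : Submodule ℂ ((X → ℂ) × (X → ℂ)) := K ⊓ LinearMap.ker lam
  let Θ : (W × (X → ℂ)) →ₗ[ℂ] ((X → ℂ) × (X → ℂ)) := (ev S).prod (ev U)
  have hrange : LinearMap.range Θ ≤ Z := by
    rintro _ ⟨q, rfl⟩
    refine ⟨⟨?_, ?_⟩, ?_⟩
    · show ev S q ∈ _
      rw [hev]; exact hcS q
    · show ev U q ∈ _
      rw [hev]; exact hcU q
    · show lam _ = 0
      rw [hlam]
      show ev U q x₀ - ev S q x₀ = 0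
      rw [hev, hev, hUST, hc q S T, Pi.add_apply, Rop_apply, hTx]
      have : c q T x₀ = 0 := by
        show β q.1 T x₀ + (Rop T q.2 x₀ - q.2 x₀) = 0
        rw [hβT, Rop_apply, hTx]; ring
      rw [this]; ring
  -- kernel of Θ
  have hker : finrank ℂ (LinearMap.ker Θ) ≤ 1 := by
    have hle : LinearMap.ker Θ ≤ Submodule.span ℂ {((0 : W), (fun _ => (1 : ℂ) : X → ℂ))} := by
      intro q hq
      have hq1 : ev S q = 0 := congrArg Prod.fst hq
      have hq2 : ev U q = 0 := congrArg Prod.snd hq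
      rw [hev] at hq1 hq2
      have hz := hzero q hq1 hq2
      have hφ : q.1 = 0 := hinj q.1 q.2 hz
      have hv : ∀ g : G, Rop g q.2 = q.2 := by
        intro g
        have := hz g
        simp only [c, hφ, map_zero, Pi.zero_apply, zero_add] at this
        exact sub_eq_zero.mp this
      rw [Submodule.mem_span_singleton]
      refine ⟨q.2 x₀, ?_⟩
      ext x
      · simp [hφ]
      · obtain ⟨g, hg⟩ := MulAction.exists_smul_eq G x x₀
        have := congrFun (hv g) x
        rw [Rop_apply, hg] at this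
        simp [this]
    exact (Submodule.finrank_mono hle).trans ((finrank_span_le_card _).trans (by simp))
  have hrk := LinearMap.finrank_range_add_finrank_ker Θ
  rw [Module.finrank_prod, Module.finrank_fintype_fun_eq_card] at hrk
  -- Z is a proper subspace of K
  have hlt : Z < K := by
    refine lt_of_le_of_ne inf_le_left ?_
    intro hZK
    have hmem : ((Pi.single x₀ (1 : ℂ) - Pi.single (S • x₀) (1 : ℂ) : X → ℂ), (0 : X → ℂ)) ∈ K := by
      refine ⟨?_, Submodule.zero_mem _⟩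
      show (∑ i ∈ Finset.range 2, (Rop S : Module.End ℂ (X → ℂ)) ^ i) _ = 0
      rw [Finset.sum_range_succ, Finset.sum_range_one, pow_zero, pow_one]
      ext x
      have hSS : S • S • x₀ = x₀ := by rw [← mul_smul, ← pow_two]; exact hS x₀
      simp only [LinearMap.add_apply, Module.End.one_apply, Pi.add_apply, Pi.sub_apply, Rop_apply,
        Pi.zero_apply, Pi.single_apply]
      have e1 : (S • x = x₀) ↔ (x = S • x₀) := by
        constructor
        · intro h; rw [← h, ← mul_smul, ← pow_two, hS]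
        · intro h; rw [h, hSS]
      have e2 : (S • x = S • x₀) ↔ (x = x₀) := (MulAction.injective S).eq_iff
      simp only [e1, e2]
      ring
    rw [← hZK] at hmem
    have h2 : lam _ = 0 := hmem.2
    rw [hlam] at h2
    simp only [Pi.zero_apply, Pi.sub_apply, Pi.single_eq_same] at h2
    rw [Pi.single_eq_of_ne (Ne.symm hSx)] at h2
    norm_num at h2
  have hZK := Submodule.finrank_lt_finrank_of_lt hlt
  have hK : finrank ℂ K ≤ finrank ℂ (Kn (X := X) S 2) + finrank ℂ (Kn (X := X) U 3) := by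
    rw [← Module.finrank_prod]
    let ι : K →ₗ[ℂ] (Kn (X := X) S 2) × (Kn (X := X) U 3) :=
      { toFun := fun q => (⟨q.1.1, q.2.1⟩, ⟨q.1.2, q.2.2⟩)
        map_add' := fun _ _ => rfl
        map_smul' := fun _ _ => rfl }
    apply LinearMap.finrank_le_finrank_of_injective (f := ι)
    intro q q' h
    apply Subtype.ext
    exact Prod.ext (congrArg (fun z => (z.1 : X → ℂ)) h) (congrArg (fun z => (z.2 : X → ℂ)) h)
  have s6 := finrank_Kn_add_orb_le (X := X) S 2 (by norm_num)
  have s7 := finrank_Kn_add_orb_le (X := X) U 3 (by norm_num)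
  have hfin : finrank ℂ Z ≤ finrank ℂ (LinearMap.range Θ) := by omega
  have heq : LinearMap.range Θ = Z := Submodule.eq_of_le_of_finrank_le hrange hfin
  have hmem : (a, b) ∈ Z := ⟨⟨ha, hb⟩, by show lam _ = 0; rw [hlam]; simp [hab]⟩
  rw [← heq] at hmem
  obtain ⟨q, hq⟩ := hmem
  refine ⟨q.1, q.2, ?_, ?_⟩
  · have h1 : ev S q = a := congrArg Prod.fst hq
    rw [hev] at h1
    exact h1
  · have h1 : ev U q = b := congrArg Prod.snd hq
    rw [hev] at h1
    exact h1

end surj

section lifts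

variable {X : Type*} [LinearOrder X] (n : ℕ)

theorem exists_intLift : ∃ L : ZMod n → ℤ, ∀ z, ((L z : ℤ) : ZMod n) = z :=
  ⟨fun z => (ZMod.intCast_surjective z).choose, fun z => (ZMod.intCast_surjective z).choose_spec⟩

/-- integral lift of an anti-invariant function under an involution -/
theorem lift_two (σ : X → X) (hσ : ∀ x, σ (σ x) = x) (a' : X → ZMod n)
    (h1 : ∀ x, a' (σ x) + a' x = 0) (h2 : ∀ x, σ x = x → a' x = 0) :
    ∃ a : X → ℤ, (∀ x, ((a x : ℤ) : ZMod n) = a' x) ∧ ∀ x, a (σ x) + a x = 0 := by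
  obtain ⟨L, hL⟩ := exists_intLift n
  refine ⟨fun x => if x < σ x then L (a' x) else if σ x < x then - L (a' (σ x)) else 0, ?_, ?_⟩
  · intro x
    dsimp only
    split_ifs with h3 h4
    · exact hL _
    · rw [Int.cast_neg, hL]
      exact (eq_neg_of_add_eq_zero_left (h1 x)).symm ▸ (by simp)
    · rw [Int.cast_zero, h2 x (le_antisymm (not_lt.mp h3) (not_lt.mp h4))]
  · intro x
    dsimp only
    rw [hσ]
    rcases lt_trichotomy x (σ x) with h | h | h
    · rw [if_neg (not_lt.mpr h.le), if_pos h, if_pos h]; ring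
    · rw [← h]; simp
    · rw [if_pos h, if_neg (not_lt.mpr h.le), if_pos h]; ring

/-- integral lift of a function with vanishing orbit sums under a map of order three -/
theorem lift_three (τ : X → X) (hτ : ∀ x, τ (τ (τ x)) = x) (b' : X → ZMod n)
    (h1 : ∀ x, b' (τ (τ x)) + b' (τ x) + b' x = 0) (h2 : ∀ x, τ x = x → b' x = 0) :
    ∃ b : X → ℤ, (∀ x, ((b x : ℤ) : ZMod n) = b' x) ∧ ∀ x, b (τ (τ x)) + b (τ x) + b x = 0 := by
  obtain ⟨L, hL⟩ := exists_intLift n
  refine ⟨fun x => if τ x = x then 0 else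
    if τ x < x ∧ τ (τ x) < x then - L (b' (τ x)) - L (b' (τ (τ x))) else L (b' x), ?_, ?_⟩
  · intro x
    dsimp only
    split_ifs with h3 h4
    · rw [Int.cast_zero, h2 x h3]
    · rw [Int.cast_sub, Int.cast_neg, hL, hL]
      linear_combination - h1 x
    · exact hL _
  · intro x
    dsimp only
    rw [hτ]
    by_cases hx : τ x = x
    · simp [hx]
    · have hy : τ (τ x) ≠ τ x := by
        intro h
        apply hx
        have := congrArg τ h
        rw [hτ, h] at this
        exact this.symm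
      have hz : x ≠ τ (τ x) := by
        intro h
        apply hx
        have := congrArg τ h
        rw [hτ] at this
        exact this
      rw [if_neg hz, if_neg hy, if_neg hx]
      set y := τ x
      set z := τ y
      rcases lt_trichotomy x y with h | h | h
      · rcases lt_trichotomy y z with h' | h' | h'
        · rw [if_pos ⟨h.trans h', h'⟩, if_neg (fun q => absurd q.1 (not_lt.mpr h'.le)),
            if_neg (fun q => absurd q.1 (not_lt.mpr h.le))]
          ring
        · exact absurd h'.symm hy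
        · rw [if_neg (fun q => absurd q.2 (not_lt.mpr h'.le)), if_pos ⟨h', h⟩,
            if_neg (fun q => absurd q.1 (not_lt.mpr h.le))]
          ring
      · exact absurd h.symm hx
      · rcases lt_trichotomy x z with h' | h' | h'
        · rw [if_pos ⟨h', h.trans h'⟩, if_neg (fun q => absurd q.2 (not_lt.mpr h.le)),
            if_neg (fun q => absurd q.2 (not_lt.mpr h'.le))]
          ring
        · exact absurd h' hz
        · rw [if_neg (fun q => absurd q.1 (not_lt.mpr h'.le)),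
            if_neg (fun q => absurd q.2 (not_lt.mpr h.le)), if_pos ⟨h, h'⟩]
          ring

end lifts

section lifts'

variable {X : Type*} (n : ℕ)

/-- `lift_two` with a prescribed value at a non-fixed point, no order needed. -/
theorem lift_two' (σ : X → X) (hσ : ∀ x, σ (σ x) = x) (a' : X → ZMod n)
    (h1 : ∀ x, a' (σ x) + a' x = 0) (h2 : ∀ x, σ x = x → a' x = 0)
    (x₁ : X) (hx₁ : σ x₁ ≠ x₁) (m₁ : ℤ) (hm₁ : ((m₁ : ℤ) : ZMod n) = a' x₁) :
    ∃ a : X → ℤ, (∀ x, ((a x : ℤ) : ZMod n) = a' x) ∧ (∀ x, a (σ x) + a x = 0) ∧ a x₁ = m₁ := by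
  classical
  let _ : LinearOrder X := linearOrderOfSTO (α := X) WellOrderingRel
  obtain ⟨a₀, ha₀, ha₀'⟩ := lift_two n σ hσ a' h1 h2
  set d : ℤ := m₁ - a₀ x₁ with hd
  have hd0 : ((d : ℤ) : ZMod n) = 0 := by rw [hd, Int.cast_sub, hm₁, ha₀, sub_self]
  refine ⟨fun x => a₀ x + d * (if x = x₁ then 1 else 0) - d * (if x = σ x₁ then 1 else 0),
    ?_, ?_, ?_⟩
  · intro x
    dsimp only
    rw [Int.cast_sub, Int.cast_add, Int.cast_mul, Int.cast_mul, hd0, ha₀]
    ring
  · intro x
    dsimp only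
    have e1 : (σ x = x₁) ↔ (x = σ x₁) := by
      constructor
      · intro h; rw [← h, hσ]
      · intro h; rw [h, hσ]
    have e2 : (σ x = σ x₁) ↔ (x = x₁) := by
      constructor
      · intro h; rw [← hσ x, h, hσ]
      · intro h; rw [h]
    simp only [e1, e2]
    linear_combination ha₀' x
  · dsimp only
    rw [if_pos rfl, if_neg (Ne.symm hx₁), hd]
    ring

theorem lift_three' (τ : X → X) (hτ : ∀ x, τ (τ (τ x)) = x) (b' : X → ZMod n)
    (h1 : ∀ x, b' (τ (τ x)) + b' (τ x) + b' x = 0) (h2 : ∀ x, τ x = x → b' x = 0) :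
    ∃ b : X → ℤ, (∀ x, ((b x : ℤ) : ZMod n) = b' x) ∧ ∀ x, b (τ (τ x)) + b (τ x) + b x = 0 := by
  classical
  let _ : LinearOrder X := linearOrderOfSTO (α := X) WellOrderingRel
  exact lift_three n τ hτ b' h1 h2

end lifts'

end

end Fermat.Agent.S16Aux.Lo
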