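import Mathlib
import Fermat.Agent.S21
import Fermat.Agent.S16.Lo.LiftAbs

/-!
# S16 (H3): a homomorphism `Γ₀(p) → ℤ/n` killing parabolic and finite order elements lifts to an
integer valued parabolic homomorphism
-/

set_option autoImplicit false

open Module Fermat.Agent.DimAux Fermat.Agent.S21Aux ModularCurve ModularCurve.Period
  CongruenceSubgroup
open scoped MatrixGroups

namespace Fermat.Agent.S16Aux.Lo

noncomputable section

theorem cuspCount_prime {p : ℕ} (hp : p.Prime) : cuspCount p = 2 := by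
  rw [cuspCount, hp.sum_divisors]
  simp [Nat.div_self hp.pos]

/-- the dimension bound of S21 is an equality (S20 + S21). -/
theorem card_X_le (p : ℕ) [Fact p.Prime] [Fintype (SL(2, ℤ) ⧸ Gamma0 p)]
    [DecidableEq (SL(2, ℤ) ⧸ Gamma0 p)] :
    Fintype.card (SL(2, ℤ) ⧸ Gamma0 p) ≤ finrank ℂ (parabolicHoms ℂ (Gamma0 p) ℂ)
      + orb (MulAction.toPerm ModularGroup.S : Equiv.Perm (SL(2, ℤ) ⧸ Gamma0 p))
      + orb (MulAction.toPerm (ModularGroup.S * ModularGroup.T) :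
          Equiv.Perm (SL(2, ℤ) ⧸ Gamma0 p)) := by
  have hp : p.Prime := Fact.out
  have : NeZero p := ⟨hp.ne_zero⟩
  have h21 := (Fermat.Agent.S21.result p).2
  have h20 := Fermat.Agent.S20.result p
  have hr := finrank_range_periodHomPair p
  rw [h21] at hr
  have hS := orb_of_pow_prime (MulAction.toPerm ModularGroup.S : Equiv.Perm (SL(2, ℤ) ⧸ Gamma0 p)) 2
    Nat.prime_two (by
      ext x
      rw [← MulAction.toPermHom_apply, ← map_pow, S_sq]
      exact neg_one_smul_X p x)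
  have hU := orb_of_pow_prime
    (MulAction.toPerm (ModularGroup.S * ModularGroup.T) : Equiv.Perm (SL(2, ℤ) ⧸ Gamma0 p)) 3
    Nat.prime_three (by
      ext x
      rw [← MulAction.toPermHom_apply, ← map_pow, ST_cube]
      exact neg_one_smul_X p x)
  have hX : Fintype.card (SL(2, ℤ) ⧸ Gamma0 p) = dedekindPsi p := by
    rw [← Nat.card_eq_fintype_card, card_X]
  have hfS : Fintype.card {x : SL(2, ℤ) ⧸ Gamma0 p //
      (MulAction.toPerm ModularGroup.S : Equiv.Perm (SL(2, ℤ) ⧸ Gamma0 p)) x = x} = nuTwo p := by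
    rw [← Nat.card_eq_fintype_card, ← card_fix_S p]
    rfl
  have hfU : Fintype.card {x : SL(2, ℤ) ⧸ Gamma0 p //
      (MulAction.toPerm (ModularGroup.S * ModularGroup.T) :
        Equiv.Perm (SL(2, ℤ) ⧸ Gamma0 p)) x = x} = nuThree p := by
    rw [← Nat.card_eq_fintype_card, ← card_fix_ST p]
    rfl
  rw [hfS, hX] at hS
  rw [hfU, hX] at hU
  rw [hX]
  have hS' : (2 : ℚ) * (orb (MulAction.toPerm ModularGroup.S :
      Equiv.Perm (SL(2, ℤ) ⧸ Gamma0 p)) : ℚ) = (dedekindPsi p : ℚ) + (nuTwo p : ℚ) := by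
    have : 2 * orb (MulAction.toPerm ModularGroup.S : Equiv.Perm (SL(2, ℤ) ⧸ Gamma0 p))
        = dedekindPsi p + nuTwo p := by simpa using hS
    exact_mod_cast this
  have hU' : (3 : ℚ) * (orb (MulAction.toPerm (ModularGroup.S * ModularGroup.T) :
      Equiv.Perm (SL(2, ℤ) ⧸ Gamma0 p)) : ℚ) = (dedekindPsi p : ℚ) + 2 * (nuThree p : ℚ) := by
    have : 3 * orb (MulAction.toPerm (ModularGroup.S * ModularGroup.T) :
        Equiv.Perm (SL(2, ℤ) ⧸ Gamma0 p)) = dedekindPsi p + 2 * nuThree p := by simpa using hU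
    exact_mod_cast this
  have hc : (cuspCount p : ℚ) = 2 := by rw [cuspCount_prime hp]; norm_num
  have hr' : (finrank ℂ (parabolicHoms ℂ (Gamma0 p) ℂ) : ℚ)
      = 2 * (finrank ℂ (CuspForm (Gamma0 p) 2) : ℚ) := by exact_mod_cast hr
  rw [h20] at hr'
  unfold genusFormula at hr'
  have : (dedekindPsi p : ℚ) ≤ (finrank ℂ (parabolicHoms ℂ (Gamma0 p) ℂ) : ℚ)
      + (orb (MulAction.toPerm ModularGroup.S : Equiv.Perm (SL(2, ℤ) ⧸ Gamma0 p)) : ℚ)
      + (orb (MulAction.toPerm (ModularGroup.S * ModularGroup.T) :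
          Equiv.Perm (SL(2, ℤ) ⧸ Gamma0 p)) : ℚ) := by
    linarith
  exact_mod_cast this

theorem kap_coe_of_fixed {G : Type*} [Group G] (Γ : Subgroup G) {g : G} {x : G ⧸ Γ}
    (h : g • x = x) : (kap Γ g x : G) = (x.out)⁻¹ * g * x.out := by
  rw [kap_coe, h]

theorem isOfFinOrder_kap {G : Type*} [Group G] (Γ : Subgroup G) {g : G} {x : G ⧸ Γ}
    (h : g • x = x) (hg : IsOfFinOrder g) : IsOfFinOrder (kap Γ g x) := by
  obtain ⟨k, hk, hgk⟩ := isOfFinOrder_iff_pow_eq_one.mp hg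
  refine isOfFinOrder_iff_pow_eq_one.mpr ⟨k, hk, ?_⟩
  apply Subtype.ext
  rw [Subgroup.coe_pow, kap_coe_of_fixed Γ h]
  have : (x.out)⁻¹ * g * x.out = (x.out)⁻¹ * g * ((x.out)⁻¹)⁻¹ := by rw [inv_inv]
  rw [this, conj_pow, hgk]
  simp

theorem kap_one {G : Type*} [Group G] (Γ : Subgroup G) (x : G ⧸ Γ) : kap Γ 1 x = 1 := by
  apply Subtype.ext
  rw [kap_coe, one_smul]
  simp

theorem S_isOfFinOrder : IsOfFinOrder (ModularGroup.S : SL(2, ℤ)) := by
  refine isOfFinOrder_iff_pow_eq_one.mpr ⟨4, by norm_num, ?_⟩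
  have : (ModularGroup.S : SL(2, ℤ)) ^ 4 = (ModularGroup.S ^ 2) ^ 2 := by rw [← pow_mul]
  rw [this, S_sq]
  simp

theorem ST_isOfFinOrder : IsOfFinOrder (ModularGroup.S * ModularGroup.T : SL(2, ℤ)) := by
  refine isOfFinOrder_iff_pow_eq_one.mpr ⟨6, by norm_num, ?_⟩
  have : (ModularGroup.S * ModularGroup.T : SL(2, ℤ)) ^ 6
      = ((ModularGroup.S * ModularGroup.T) ^ 3) ^ 2 := by rw [← pow_mul]
  rw [this, ST_cube]
  simp

theorem T_smul_mk_one (N : ℕ) :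
    (ModularGroup.T : SL(2, ℤ)) • (QuotientGroup.mk 1 : SL(2, ℤ) ⧸ Gamma0 N)
      = QuotientGroup.mk 1 := by
  show (QuotientGroup.mk (ModularGroup.T * 1) : SL(2, ℤ) ⧸ Gamma0 N) = QuotientGroup.mk 1
  rw [eq_comm, QuotientGroup.eq, Gamma0_mem]
  simp [ModularGroup.T]

theorem S_smul_mk_one_ne {N : ℕ} (hN : 1 < N) :
    (ModularGroup.S : SL(2, ℤ)) • (QuotientGroup.mk 1 : SL(2, ℤ) ⧸ Gamma0 N)
      ≠ QuotientGroup.mk 1 := by
  show (QuotientGroup.mk (ModularGroup.S * 1) : SL(2, ℤ) ⧸ Gamma0 N) ≠ QuotientGroup.mk 1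
  rw [Ne, eq_comm, QuotientGroup.eq, Gamma0_mem]
  have : Fact (1 < N) := ⟨hN⟩
  simp [ModularGroup.S]

theorem T_trace : ((ModularGroup.T : SL(2, ℤ)) : Matrix (Fin 2) (Fin 2) ℤ).trace ^ 2 = 4 := by
  simp [ModularGroup.T, Matrix.trace_fin_two]

/-- (H3) LIFT. -/
theorem exists_lift (p : ℕ) [Fact p.Prime] (n : ℕ) (ψ : Additive (Gamma0 p) →+ ZMod n)
    (hpar : ∀ γ : Gamma0 p, ((γ : SL(2, ℤ)) : Matrix (Fin 2) (Fin 2) ℤ).trace ^ 2 = 4 →
      ψ (Additive.ofMul γ) = 0)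
    (hfin : ∀ γ : Gamma0 p, IsOfFinOrder γ → ψ (Additive.ofMul γ) = 0) :
    ∃ χ : Additive (Gamma0 p) →+ ℂ, χ ∈ parabolicHoms ℂ (Gamma0 p) ℂ ∧
      ∀ γ, ∃ m : ℤ, χ γ = (m : ℂ) ∧ ((m : ℤ) : ZMod n) = ψ γ := by
  classical
  have hp : p.Prime := Fact.out
  have : NeZero p := ⟨hp.ne_zero⟩
  have : Fintype (SL(2, ℤ) ⧸ Gamma0 p) := Fintype.ofFinite _
  set S : SL(2, ℤ) := ModularGroup.S with hSdef
  set T : SL(2, ℤ) := ModularGroup.T with hTdef
  set U : SL(2, ℤ) := S * T with hUdef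
  set x₀ : SL(2, ℤ) ⧸ Gamma0 p := QuotientGroup.mk 1 with hx₀
  have hS2 : ∀ x : SL(2, ℤ) ⧸ Gamma0 p, S ^ 2 • x = x := fun x => by
    rw [S_sq]; exact neg_one_smul_X p x
  have hU3 : ∀ x : SL(2, ℤ) ⧸ Gamma0 p, U ^ 3 • x = x := fun x => by
    rw [ST_cube]; exact neg_one_smul_X p x
  have hTx : T • x₀ = x₀ := T_smul_mk_one p
  have hSx : S • x₀ ≠ x₀ := S_smul_mk_one_ne hp.one_lt
  -- the `ψ`-cocycle
  let cψ : SL(2, ℤ) → SL(2, ℤ) ⧸ Gamma0 p → ZMod n :=
    fun g x => ψ (Additive.ofMul (kap (Gamma0 p) g x))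
  have hcψ : ∀ g h x, cψ (g * h) x = cψ g (h • x) + cψ h x := by
    intro g h x
    show ψ _ = ψ _ + ψ _
    rw [kap_mul, ofMul_mul, map_add]
  have hcψ_tr : ∀ (g : SL(2, ℤ)) (x : SL(2, ℤ) ⧸ Gamma0 p), g • x = x →
      (g : Matrix (Fin 2) (Fin 2) ℤ).trace ^ 2 = 4 → cψ g x = 0 := by
    intro g x hgx htr
    apply hpar
    rw [kap_coe_of_fixed _ hgx, trace_conj, htr]
  have hcψ_fin : ∀ g x, g • x = x → IsOfFinOrder g → cψ g x = 0 := by
    intro g x hgx hg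
    exact hfin _ (isOfFinOrder_kap _ hgx hg)
  -- the pair mod `n`
  have hb1 : ∀ x, cψ U (U • U • x) + cψ U (U • x) + cψ U x = 0 := by
    intro x
    have h1 : cψ (U ^ 3) x = 0 := by
      apply hcψ_tr _ _ (hU3 x)
      rw [ST_cube]; exact neg_one_trace
    rw [pow_succ, pow_two, hcψ, hcψ] at h1
    exact h1
  have ha1 : ∀ x, cψ S (S • x) + cψ S x = 0 := by
    intro x
    have h1 : cψ (S ^ 2) x = 0 := by
      apply hcψ_tr _ _ (hS2 x)
      rw [S_sq]; exact neg_one_trace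
    rw [pow_two, hcψ] at h1
    exact h1
  obtain ⟨b, hb, hb'⟩ := lift_three' n (fun x : SL(2, ℤ) ⧸ Gamma0 p => U • x)
    (fun x => by
      show U • U • U • x = x
      rw [← mul_smul, ← mul_smul, ← pow_two, ← pow_succ]; exact hU3 x)
    (cψ U) hb1 (fun x hx => hcψ_fin U x hx ST_isOfFinOrder)
  have hab0 : cψ U x₀ = cψ S x₀ := by
    rw [hUdef, hcψ, hTx, hcψ_tr T x₀ hTx T_trace, add_zero]
  obtain ⟨a, ha, ha', hax⟩ := lift_two' n (fun x : SL(2, ℤ) ⧸ Gamma0 p => S • x)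
    (fun x => by
      show S • S • x = x
      rw [← mul_smul, ← pow_two]; exact hS2 x)
    (cψ S) ha1 (fun x hx => hcψ_fin S x hx S_isOfFinOrder) x₀ hSx (b x₀) (by rw [hb, hab0])
  -- complex pair
  have haK : (fun x => ((a x : ℤ) : ℂ)) ∈ Kn (X := SL(2, ℤ) ⧸ Gamma0 p) S 2 := by
    show (∑ i ∈ Finset.range 2, (Rop S : Module.End ℂ (SL(2, ℤ) ⧸ Gamma0 p → ℂ)) ^ i) _ = 0
    rw [Finset.sum_range_succ, Finset.sum_range_one, pow_zero, pow_one]
    ext x
    simp only [LinearMap.add_apply, Module.End.one_apply, Pi.add_apply, Rop_apply, Pi.zero_apply]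
    have := ha' x
    rw [add_comm]
    exact_mod_cast this
  have hbK : (fun x => ((b x : ℤ) : ℂ)) ∈ Kn (X := SL(2, ℤ) ⧸ Gamma0 p) U 3 := by
    show (∑ i ∈ Finset.range 3, (Rop U : Module.End ℂ (SL(2, ℤ) ⧸ Gamma0 p → ℂ)) ^ i) _ = 0
    rw [Finset.sum_range_succ, Finset.sum_range_succ, Finset.sum_range_one, pow_zero, pow_one,
      pow_two]
    ext x
    simp only [LinearMap.add_apply, Module.End.one_apply, Pi.add_apply, Rop_apply, Pi.zero_apply,
      Module.End.mul_apply]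
    have := hb' x
    have h2 : ((b x : ℤ) : ℂ) + (b (U • x) : ℂ) + (b (U • U • x) : ℂ)
        = ((b (U • U • x) + b (U • x) + b x : ℤ) : ℂ) := by push_cast; ring
    rw [h2, this]
    simp
  have hfinW := (parabolicHoms_bound p).1
  obtain ⟨φ, v, hφS, hφU⟩ := exists_cocycle_of_pair (G := SL(2, ℤ)) (X := SL(2, ℤ) ⧸ Gamma0 p)
    (W := parabolicHoms ℂ (Gamma0 p) ℂ)
    ((shap (Gamma0 p)).comp (parabolicHoms ℂ (Gamma0 p) ℂ).subtype)
    (fun φ => isCocycle_shap (Gamma0 p) φ.1)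
    (S := S) (U := U) (T := T) rfl closure_S_ST hS2 hU3
    (fun φ => by
      rw [S_sq]
      exact shap_eq_zero_of_trace (Gamma0 p) φ.2 (neg_one_smul_X p) neg_one_trace)
    (fun φ => by
      rw [ST_cube]
      exact shap_eq_zero_of_trace (Gamma0 p) φ.2 (neg_one_smul_X p) neg_one_trace)
    x₀ hTx hSx
    (fun φ => by
      show shap (Gamma0 p) φ.1 T x₀ = 0
      rw [shap_apply]
      apply φ.2
      rw [kap_coe_of_fixed _ hTx, trace_conj, T_trace])
    (fun φ v h => Subtype.ext (shap_inj (Gamma0 p) φ.1 v h))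
    (card_X_le p)
    (fun x => ((a x : ℤ) : ℂ)) (fun x => ((b x : ℤ) : ℂ)) haK hbK (by rw [hax])
  -- the total cocycle
  let c : SL(2, ℤ) → SL(2, ℤ) ⧸ Gamma0 p → ℂ := fun g => shap (Gamma0 p) φ.1 g + (Rop g v - v)
  have hc : IsCocycle c := (isCocycle_shap (Gamma0 p) φ.1).add (isCocycle_cobdry v)
  have hint : ∀ g x, ∃ m : ℤ, c g x = (m : ℂ) ∧ ((m : ℤ) : ZMod n) = cψ g x := by
    intro g
    have hg : g ∈ Subgroup.closure {S, U} := closure_S_ST ▸ Subgroup.mem_top g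
    induction hg using Subgroup.closure_induction with
    | mem y hy =>
      intro x
      rcases hy with rfl | rfl
      · exact ⟨a x, congrFun hφS x, ha x⟩
      · exact ⟨b x, congrFun hφU x, hb x⟩
    | one =>
      intro x
      refine ⟨0, ?_, ?_⟩
      · rw [hc.one]; simp
      · show _ = ψ _
        rw [kap_one]; simp
    | mul y z _ _ hy hz =>
      intro x
      obtain ⟨m₁, h1, h1'⟩ := hy (z • x)
      obtain ⟨m₂, h2, h2'⟩ := hz x
      refine ⟨m₁ + m₂, ?_, ?_⟩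
      · rw [hc y z, Pi.add_apply, Rop_apply, h1, h2]; push_cast; ring
      · rw [hcψ, Int.cast_add, h1', h2']
    | inv y _ hy =>
      intro x
      obtain ⟨m₁, h1, h1'⟩ := hy (y⁻¹ • x)
      refine ⟨-m₁, ?_, ?_⟩
      · have := congrFun (hc y y⁻¹) x
        rw [mul_inv_cancel, hc.one, Pi.add_apply, Rop_apply, h1, Pi.zero_apply] at this
        push_cast
        linear_combination -this
      · have := hcψ y y⁻¹ x
        rw [mul_inv_cancel] at this
        have h0 : cψ 1 x = 0 := by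
          show ψ _ = 0
          rw [kap_one]; simp
        rw [h0, ← h1'] at this
        rw [Int.cast_neg]
        linear_combination this
  refine ⟨φ.1, φ.2, ?_⟩
  intro γ
  obtain ⟨γ, rfl⟩ := Additive.ofMul.surjective γ
  set r₀ : SL(2, ℤ) := x₀.out with hr₀
  have hr₀mem : r₀ ∈ Gamma0 p := by
    have : (QuotientGroup.mk r₀ : SL(2, ℤ) ⧸ Gamma0 p) = QuotientGroup.mk 1 :=
      QuotientGroup.out_eq' x₀
    rw [eq_comm, QuotientGroup.eq] at this
    simpa using this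
  set g : SL(2, ℤ) := r₀ * γ * r₀⁻¹ with hg
  have hgmem : g ∈ Gamma0 p :=
    (Gamma0 p).mul_mem ((Gamma0 p).mul_mem hr₀mem γ.2) ((Gamma0 p).inv_mem hr₀mem)
  have hgx : g • x₀ = x₀ := by
    show (QuotientGroup.mk (g * 1) : SL(2, ℤ) ⧸ Gamma0 p) = QuotientGroup.mk 1
    rw [eq_comm, QuotientGroup.eq]
    simpa using hgmem
  have hk : kap (Gamma0 p) g x₀ = γ := by
    apply Subtype.ext
    rw [kap_coe, hgx, ← hr₀, hg]
    group
  obtain ⟨m, hm, hm'⟩ := hint g x₀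
  refine ⟨m, ?_, ?_⟩
  · rw [← hm]
    show _ = shap (Gamma0 p) φ.1 g x₀ + (Rop g v x₀ - v x₀)
    rw [Rop_apply, hgx, sub_self, add_zero, shap_apply, hk]
  · rw [hm']
    show ψ _ = _
    rw [hk]

end

end Fermat.Agent.S16Aux.Lo
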