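import Fermat.Agent.S16.Defs
import Fermat.Agent.S16.Lo.HeckeImg

/-!
# S16 (lower bound), (H2): the Eisenstein character `ψ : Γ₀(p) → ℤ/n`
-/

set_option autoImplicit false

open CongruenceSubgroup ModularCurve ModularCurve.Period Matrix.SpecialLinearGroup
open scoped MatrixGroups
open P2MW.S_ModularForm_heckeT_slash_eq_self_of_mem_Gamma0.ModularForm.HeckeSlashInvariance

namespace Fermat.Agent.S16Aux.Lo

/-- A cyclic group of order `n * ν` has a surjection onto `ℤ/n` killing the `ν`-torsion. -/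
theorem exists_hom_cyclic (G : Type*) [Group G] [IsCyclic G] [Finite G] (n ν : ℕ) (hν : ν ≠ 0)
    (h : Nat.card G = n * ν) :
    ∃ l : G →* Multiplicative (ZMod n), Function.Surjective l ∧ ∀ u, u ^ ν = 1 → l u = 1 := by
  have hdvd : n ∣ Nat.card G := ⟨ν, h⟩
  have hne : NeZero (Nat.card G) := ⟨Nat.card_pos.ne'⟩
  let e : G ≃* Multiplicative (ZMod (Nat.card G)) := (zmodCyclicMulEquiv ‹IsCyclic G›).symm
  let c : ZMod (Nat.card G) →+* ZMod n := ZMod.castHom hdvd (ZMod n)
  refine ⟨(AddMonoidHom.toMultiplicative c.toAddMonoidHom).comp e.toMonoidHom, ?_, ?_⟩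
  · intro y
    obtain ⟨k, hk⟩ := ZMod.castHom_surjective hdvd (Multiplicative.toAdd y)
    exact ⟨e.symm (Multiplicative.ofAdd k), by
      simp only [MonoidHom.comp_apply, MulEquiv.coe_toMonoidHom, MulEquiv.apply_symm_apply]
      exact congrArg Multiplicative.ofAdd hk⟩
  · intro u hu
    have h1 : e u ^ ν = 1 := by rw [← map_pow, hu, map_one]
    set k : ZMod (Nat.card G) := Multiplicative.toAdd (e u) with hk
    have h2 : ν • k = 0 := by
      have := congrArg Multiplicative.toAdd h1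
      simpa using this
    have h3 : ((ν * k.val : ℕ) : ZMod (Nat.card G)) = 0 := by
      rw [Nat.cast_mul, ZMod.natCast_zmod_val, ← nsmul_eq_mul, h2]
    rw [ZMod.natCast_eq_zero_iff] at h3
    have h3' : ν * n ∣ ν * k.val := by
      have : ν * n = Nat.card G := by rw [h, mul_comm]
      rw [this]; exact h3
    have h4 : n ∣ k.val := Nat.dvd_of_mul_dvd_mul_left (Nat.pos_of_ne_zero hν) h3'
    have h5 : c k = 0 := by
      rw [← ZMod.natCast_zmod_val k, map_natCast, ZMod.natCast_eq_zero_iff]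
      exact h4
    show Multiplicative.ofAdd (c k) = 1
    rw [h5]
    rfl

section psi

variable (p : ℕ) [Fact p.Prime]

omit [Fact p.Prime] in
theorem eisNum_mul_gcd : eisensteinNumerator p * Nat.gcd (p - 1) 12 = p - 1 :=
  Nat.div_mul_cancel (Nat.gcd_dvd_left _ _)

theorem eisNum_ne_zero : eisensteinNumerator p ≠ 0 := by
  intro h
  have h1 := eisNum_mul_gcd p
  rw [h, zero_mul] at h1
  have := (Fact.out : p.Prime).two_le
  omega

theorem exists_logHom : ∃ l : (ZMod p)ˣ →* Multiplicative (ZMod (eisensteinNumerator p)),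
    Function.Surjective l ∧ ∀ u, u ^ Nat.gcd (p - 1) 12 = 1 → l u = 1 :=
  exists_hom_cyclic _ _ _ (Nat.gcd_ne_zero_right (by norm_num))
    (by rw [Nat.card_eq_fintype_card, ZMod.card_units, eisNum_mul_gcd])

/-- A discrete logarithm `(ℤ/p)ˣ → ℤ/n`. -/
noncomputable def logHom : (ZMod p)ˣ →* Multiplicative (ZMod (eisensteinNumerator p)) :=
  (exists_logHom p).choose

theorem logHom_surjective : Function.Surjective (logHom p) := (exists_logHom p).choose_spec.1

theorem logHom_eq_one {u : (ZMod p)ˣ} (h : u ^ 12 = 1) : logHom p u = 1 :=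
  (exists_logHom p).choose_spec.2 u
    (pow_gcd_eq_one.2 ⟨ZMod.units_pow_card_sub_one_eq_one p u, h⟩)

/-- `γ ↦ d(γ) mod p`. -/
noncomputable def dHom : Gamma0 p →* (ZMod p)ˣ := (Gamma0Map p).toHomUnits

theorem coe_dHom (γ : Gamma0 p) : ((dHom p γ : (ZMod p)ˣ) : ZMod p) = (((γ : SL(2, ℤ)) 1 1 : ℤ) : ZMod p) :=
  rfl

/-- The Eisenstein character. -/
noncomputable def psi : Additive (Gamma0 p) →+ ZMod (eisensteinNumerator p) :=
  MonoidHom.toAdditiveLeft ((logHom p).comp (dHom p))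

theorem psi_apply (γ : Gamma0 p) :
    psi p (Additive.ofMul γ) = Multiplicative.toAdd (logHom p (dHom p γ)) := rfl

theorem psi_eq_zero {γ : Gamma0 p} (h : dHom p γ ^ 12 = 1) : psi p (Additive.ofMul γ) = 0 := by
  rw [psi_apply, logHom_eq_one p h]
  rfl

theorem a_mul_d (γ : Gamma0 p) :
    (((γ : SL(2, ℤ)) 0 0 : ℤ) : ZMod p) * (((γ : SL(2, ℤ)) 1 1 : ℤ) : ZMod p) = 1 :=
  unit_of_apply_one_zero_eq_zero (γ : SL(2, ℤ)) (Gamma0_mem.mp γ.2)

theorem psi_parabolic (γ : Gamma0 p)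
    (h : ((γ : SL(2, ℤ)) : Matrix (Fin 2) (Fin 2) ℤ).trace ^ 2 = 4) :
    psi p (Additive.ofMul γ) = 0 := by
  apply psi_eq_zero
  have h2 : dHom p γ ^ 2 = 1 := by
    apply Units.ext
    rw [Units.val_pow_eq_pow_val, coe_dHom, Units.val_one]
    have had := a_mul_d p γ
    rw [Matrix.trace_fin_two] at h
    have h' := congrArg (Int.cast : ℤ → ZMod p) h
    push_cast at h'
    set a := (((γ : SL(2, ℤ)) 0 0 : ℤ) : ZMod p)
    set d := (((γ : SL(2, ℤ)) 1 1 : ℤ) : ZMod p)
    -- (d^2 - 1)^2 = d^2 ((a + d)^2 - 4) when a d = 1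
    have h3 : (d ^ 2 - 1) ^ 2 = 0 := by
      linear_combination d ^ 2 * h' - (1 + a * d + 2 * d ^ 2) * had
    have := pow_eq_zero_iff (two_ne_zero) |>.1 h3
    linear_combination this
  calc dHom p γ ^ 12 = (dHom p γ ^ 2) ^ 6 := by rw [← pow_mul]
    _ = 1 := by rw [h2, one_pow]

theorem psi_of_pow_twelve (γ : Gamma0 p) (h : γ ^ 12 = 1) : psi p (Additive.ofMul γ) = 0 := by
  apply psi_eq_zero
  rw [← map_pow, h, map_one]

theorem dHom_surjective : Function.Surjective (dHom p) := by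
  intro u
  have hp : (p : ℕ).Prime := Fact.out
  have hcop : IsCoprime (((u : ZMod p).val : ℤ)) (p : ℤ) := by
    rw [Nat.isCoprime_iff_coprime]
    exact (ZMod.val_coe_unit_coprime u)
  obtain ⟨a, b, hab⟩ := hcop
  have hdet : (!![a, -b; (p : ℤ), ((u : ZMod p).val : ℤ)] : Matrix (Fin 2) (Fin 2) ℤ).det = 1 := by
    rw [Matrix.det_fin_two_of]
    linarith
  refine ⟨⟨⟨_, hdet⟩, ?_⟩, ?_⟩
  · rw [Gamma0_mem]
    simp
  · apply Units.ext
    rw [coe_dHom]
    simp

theorem exists_psi_eq_one : ∃ γ : Gamma0 p, psi p (Additive.ofMul γ) = 1 := by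
  obtain ⟨u, hu⟩ := logHom_surjective p (Multiplicative.ofAdd 1)
  obtain ⟨γ, hγ⟩ := dHom_surjective p u
  exact ⟨γ, by rw [psi_apply, hγ, hu]; rfl⟩

theorem psi_eq_of_dHom_eq {γ γ' : Gamma0 p} (h : dHom p γ = dHom p γ') :
    psi p (Additive.ofMul γ) = psi p (Additive.ofMul γ') := by
  rw [psi_apply, psi_apply, h]

theorem c_eq_zero (γ : Gamma0 p) : (((γ : SL(2, ℤ)) 1 0 : ℤ) : ZMod p) = 0 := Gamma0_mem.mp γ.2

theorem natCast_p_eq_one : ((p : ℕ) : ZMod (eisensteinNumerator p)) = 1 := by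
  have hp : 1 ≤ p := (Fact.out : p.Prime).one_lt.le
  have h : ((p - 1 : ℕ) : ZMod (eisensteinNumerator p)) = 0 := by
    rw [ZMod.natCast_eq_zero_iff]
    exact ⟨_, (eisNum_mul_gcd p).symm⟩
  rw [Nat.cast_sub hp, Nat.cast_one, sub_eq_zero] at h
  exact h

theorem psi_U : IsHeckeImg (repU p) (psi p) (psi p) := by
  intro γ σ γ' hγ
  have key : ∀ i, psi p (Additive.ofMul (γ' i)) = psi p (Additive.ofMul γ) := by
    intro i
    apply psi_eq_of_dHom_eq
    apply Units.ext
    rw [coe_dHom, coe_dHom]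
    have h1 := (entries_of_mul_eq (repU_val p i) (repU_val p (σ i)) (hγ i)).1
    have h2 := congrArg (Int.cast : ℤ → ZMod p) h1
    push_cast at h2
    rw [c_eq_zero] at h2
    have h3 := a_mul_d p γ
    have h4 := a_mul_d p (γ' i)
    set a := (((γ : SL(2, ℤ)) 0 0 : ℤ) : ZMod p)
    set d := (((γ : SL(2, ℤ)) 1 1 : ℤ) : ZMod p)
    set a' := (((γ' i : SL(2, ℤ)) 0 0 : ℤ) : ZMod p)
    set d' := (((γ' i : SL(2, ℤ)) 1 1 : ℤ) : ZMod p)
    have h5 : a = a' := by linear_combination h2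
    calc d' = d' * (a * d) := by rw [h3, mul_one]
      _ = (a' * d') * d := by rw [h5]; ring
      _ = d := by rw [h4, one_mul]
  rw [Finset.sum_congr rfl (fun i _ => key i), Finset.sum_const, Finset.card_univ, ZMod.card,
    nsmul_eq_mul, natCast_p_eq_one, one_mul]

/-- the unit `repD ℓ x mod p`. -/
theorem exists_unit_repD {ℓ : ℕ} (hℓ : ℓ.Prime) (hℓp : ¬ ℓ ∣ p) (x : OnePoint (ZMod ℓ)) :
    ∃ w : (ZMod p)ˣ, (w : ZMod p) = ((repD ℓ x : ℤ) : ZMod p) := by
  have hp : p.Prime := Fact.out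
  have hcop : Nat.Coprime ℓ p := (Nat.Prime.coprime_iff_not_dvd hℓ).2 hℓp
  induction x using OnePoint.rec with
  | infty => exact ⟨1, by simp [repD]⟩
  | coe j => exact ⟨ZMod.unitOfCoprime ℓ hcop, by simp [repD]⟩

theorem psi_T {ℓ : ℕ} [Fact ℓ.Prime] (hℓp : ¬ ℓ ∣ p) :
    IsHeckeImg (heckeRep ℓ) (psi p) ((1 + ℓ) • psi p) := by
  intro γ σ γ' hγ
  choose w hw using exists_unit_repD p (Fact.out : ℓ.Prime) hℓp
  have key : ∀ i, w i * dHom p γ = dHom p (γ' i) * w (σ i) := by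
    intro i
    apply Units.ext
    rw [Units.val_mul, Units.val_mul, coe_dHom, coe_dHom, hw, hw]
    have h1 := (entries_of_mul_eq (heckeRep_val ℓ i) (heckeRep_val ℓ (σ i)) (hγ i)).2
    have h2 := congrArg (Int.cast : ℤ → ZMod p) h1
    push_cast at h2
    rw [c_eq_zero] at h2
    linear_combination h2
  have key2 : ∀ i, Multiplicative.toAdd (logHom p (w i)) + psi p (Additive.ofMul γ)
      = psi p (Additive.ofMul (γ' i)) + Multiplicative.toAdd (logHom p (w (σ i))) := by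
    intro i
    have := congrArg (fun u => Multiplicative.toAdd (logHom p u)) (key i)
    simpa only [map_mul, toAdd_mul, psi_apply] using this
  have h3 := Finset.sum_congr rfl (fun i (_ : i ∈ Finset.univ) => key2 i)
  rw [Finset.sum_add_distrib, Finset.sum_add_distrib,
    Equiv.sum_comp σ (fun i => Multiplicative.toAdd (logHom p (w i))), Finset.sum_const,
    Finset.card_univ] at h3
  have hcard : Fintype.card (OnePoint (ZMod ℓ)) = 1 + ℓ := by
    rw [show Fintype.card (OnePoint (ZMod ℓ)) = Fintype.card (Option (ZMod ℓ)) from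
      Fintype.card_congr (Equiv.refl _), Fintype.card_option, ZMod.card, add_comm]
  rw [hcard] at h3
  rw [AddMonoidHom.nsmul_apply]
  linear_combination h3

end psi

end Fermat.Agent.S16Aux.Lo
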