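import Fermat.Agent.S21
import Fermat.Agent.S16.Lo.Psi
import Fermat.Agent.S16.Lo.Lift

/-!
# S16 (lower bound), (H4): assembly of THM-L from the period equivariance (H1a)
-/

set_option autoImplicit false

open CongruenceSubgroup ModularCurve ModularCurve.Period Matrix.SpecialLinearGroup CuspForm
open scoped MatrixGroups
open P2MW.S_ModularForm_heckeT_slash_eq_self_of_mem_Gamma0.ModularForm.HeckeSlashInvariance

namespace Fermat.Agent.S16Aux.Lo

theorem periodHomPair_mk (N : ℕ) [NeZero N] (f g : CuspForm (Gamma0 N) 2) :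
    periodHomPair N (f, g)
      = (periodMap N f + charInvolution N ℂ ℂ (periodMap N f))
        + (periodMap N g - charInvolution N ℂ ℂ (periodMap N g)) := by
  rw [Fermat.Agent.S21Aux.periodHomPair_eq]
  rfl

theorem isHeckeImg_periodHomPair {N : ℕ} [NeZero N] {ι : Type*} [Fintype ι]
    {rep : ι → GL (Fin 2) ℝ}
    (hinv : ∀ {χ χ' : Additive (Gamma0 N) →+ ℂ}, IsHeckeImg rep χ χ' →
      IsHeckeImg rep (charInvolution N ℂ ℂ χ) (charInvolution N ℂ ℂ χ'))
    (t : CuspForm (Gamma0 N) 2 → CuspForm (Gamma0 N) 2)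
    (ht : ∀ f, IsHeckeImg rep (periodMap N f) (periodMap N (t f)))
    (f g : CuspForm (Gamma0 N) 2) :
    IsHeckeImg rep (ModularCurve.periodHomPair N (f, g))
      (ModularCurve.periodHomPair N (t f, t g)) := by
  rw [periodHomPair_mk, periodHomPair_mk]
  exact ((ht f).add (hinv (ht f))).add ((ht g).sub (hinv (ht g)))

section

variable (p : ℕ) [Fact p.Prime]

/-- `Φ (f, g)` is integer valued and congruent to `c ψ` modulo `n`. -/
def Cong (f g : CuspForm (Gamma0 p) 2) (c : ZMod (eisensteinNumerator p)) : Prop :=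
  ∀ γ : Gamma0 p, ∃ m : ℤ, periodHomPair p (f, g) (Additive.ofMul γ) = (m : ℂ) ∧
    (m : ZMod (eisensteinNumerator p)) = c * psi p (Additive.ofMul γ)

variable {p}

theorem Cong.add {f g f' g' : CuspForm (Gamma0 p) 2} {c c' : ZMod (eisensteinNumerator p)}
    (h : Cong p f g c) (h' : Cong p f' g' c') : Cong p (f + f') (g + g') (c + c') := by
  intro γ
  obtain ⟨m, hm, hm'⟩ := h γ
  obtain ⟨k, hk, hk'⟩ := h' γ
  refine ⟨m + k, ?_, ?_⟩
  · rw [← Prod.mk_add_mk, map_add, AddMonoidHom.add_apply, hm, hk]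
    push_cast
    rfl
  · push_cast
    rw [hm', hk']
    ring

theorem Cong.zsmul {f g : CuspForm (Gamma0 p) 2} {c : ZMod (eisensteinNumerator p)}
    (h : Cong p f g c) (a : ℤ) : Cong p (a • f) (a • g) (a * c) := by
  intro γ
  obtain ⟨m, hm, hm'⟩ := h γ
  refine ⟨a * m, ?_, ?_⟩
  · rw [← Prod.smul_mk, map_zsmul, AddMonoidHom.zsmul_apply, hm]
    push_cast
    rw [zsmul_eq_mul]
  · push_cast
    rw [hm']
    ring

theorem Cong.hecke {ι : Type*} [Fintype ι] {rep : ι → GL (Fin 2) ℝ}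
    {f g f' g' : CuspForm (Gamma0 p) 2} {c : ZMod (eisensteinNumerator p)} {e : ℕ}
    (hex : ∀ γ : Gamma0 p, ∃ (σ : Equiv.Perm ι) (γ' : ι → Gamma0 p),
      ∀ i, rep i * mapGL ℝ (γ : SL(2, ℤ)) = mapGL ℝ (γ' i : SL(2, ℤ)) * rep (σ i))
    (hΦ : IsHeckeImg rep (periodHomPair p (f, g)) (periodHomPair p (f', g')))
    (hψ : IsHeckeImg rep (psi p) (e • psi p))
    (h : Cong p f g c) : Cong p f' g' (c * e) := by
  intro γ
  obtain ⟨σ, γ', hγ⟩ := hex γ
  choose m hm hm' using fun i => h (γ' i)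
  refine ⟨∑ i, m i, ?_, ?_⟩
  · rw [hΦ γ σ γ' hγ]
    push_cast
    exact Finset.sum_congr rfl fun i _ => hm i
  · push_cast
    rw [Finset.sum_congr rfl fun i _ => hm' i, ← Finset.mul_sum, ← hψ γ σ γ' hγ,
      AddMonoidHom.nsmul_apply, nsmul_eq_mul]
    ring

variable (p)

theorem psi_U' {q : ℕ} [NeZero q] (hq : q = p) : IsHeckeImg (repU q) (psi p) (psi p) := by
  subst hq
  exact psi_U q

/-- The Hecke operator attached to `P`. -/
noncomputable def ev (P : HeckeAlg) : Module.End ℂ (CuspForm (Gamma0 p) 2) :=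
  ((heckeEvalForms p 2 P : heckeAlgebra p 2 ∅) : Module.End ℂ (CuspForm (Gamma0 p) 2))

theorem thmL_of
    (hT : ∀ (ℓ : ℕ) [Fact ℓ.Prime] (hℓ : ℓ.Prime) (hℓp : ¬ ℓ ∣ p) (f : CuspForm (Gamma0 p) 2),
      IsHeckeImg (heckeRep ℓ) (periodMap p f) (periodMap p (CuspForm.heckeTLin 2 hℓ hℓp f)))
    (hU : ∀ (q : ℕ) [NeZero q] (hq : q ∣ p) (f : CuspForm (Gamma0 p) 2),
      IsHeckeImg (repU q) (periodMap p f) (periodMap p (CuspForm.heckeULin 2 hq f)))
    (hfin : ∀ γ : SL(2, ℤ), IsOfFinOrder γ → γ ^ 12 = 1) : ThmL p := by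
  intro P hP
  obtain ⟨χ, hχpar, hχ⟩ := exists_lift p (eisensteinNumerator p) (psi p) (psi_parabolic p)
    (fun γ hγ => psi_of_pow_twelve p γ (by
      apply Subtype.ext
      have := hfin (γ : SL(2, ℤ)) ((Gamma0 p).subtype.isOfFinOrder hγ)
      simpa using this))
  rw [← (Fermat.Agent.S21.result p).2] at hχpar
  obtain ⟨⟨f₀, g₀⟩, hx⟩ := hχpar
  have h0 : Cong p f₀ g₀ 1 := by
    intro γ
    obtain ⟨m, hm, hm'⟩ := hχ (Additive.ofMul γ)
    exact ⟨m, by rw [hx, hm], by rw [hm', one_mul]⟩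
  have key : ∀ Q : HeckeAlg, Cong p (ev p Q f₀) (ev p Q g₀)
      ((MvPolynomial.aeval (eisensteinSystem p) Q : ℤ) : ZMod (eisensteinNumerator p)) := by
    intro Q
    induction Q using MvPolynomial.induction_on with
    | C a =>
      have h1 : ev p (MvPolynomial.C a) = a • (1 : Module.End ℂ (CuspForm (Gamma0 p) 2)) := by
        rw [ev, heckeEvalForms_C]
        simp
      have := h0.zsmul a
      rw [h1]
      simpa using this
    | add Q Q' hQ hQ' =>
      have h1 : ev p (Q + Q') = ev p Q + ev p Q' := by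
        simp [ev]
      rw [h1, map_add]
      push_cast
      exact hQ.add hQ'
    | mul_X Q ℓ hQ =>
      have h1 : ev p (Q * MvPolynomial.X ℓ) = ev p (heckeGen ℓ) * ev p Q := by
        rw [mul_comm Q]
        simp [ev, heckeGen]
      rw [h1, map_mul, MvPolynomial.aeval_X]
      simp only [Module.End.mul_apply]
      by_cases hℓ : (ℓ : ℕ) ∣ p
      · have h2 : ev p (heckeGen ℓ) = CuspForm.heckeULin 2 hℓ := by
          rw [ev, heckeEvalForms_heckeGen_of_dvd hℓ, heckeAlgebra.coe_U]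
        rw [h2, eisensteinSystem_of_dvd hℓ]
        have hℓp : (ℓ : ℕ) = p := (Nat.prime_dvd_prime_iff_eq ℓ.2 Fact.out).1 hℓ
        have : NeZero (ℓ : ℕ) := ⟨ℓ.2.ne_zero⟩
        have hψ : IsHeckeImg (repU (ℓ : ℕ)) (psi p) (1 • psi p) := by
          rw [one_smul]
          exact psi_U' p hℓp
        have := Cong.hecke (exists_perm_U hℓ)
          (isHeckeImg_periodHomPair (fun h => h.charInvolution_U ℂ) _ (hU (ℓ : ℕ) hℓ)
            (ev p Q f₀) (ev p Q g₀)) hψ hQ
        simpa using this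
      · have h2 : ev p (heckeGen ℓ) = CuspForm.heckeTLin 2 ℓ.2 hℓ := by
          rw [ev, heckeEvalForms_heckeGen_of_not_dvd hℓ, heckeAlgebra.coe_T]
        rw [h2, eisensteinSystem_of_not_dvd hℓ]
        have : Fact (ℓ : ℕ).Prime := ⟨ℓ.2⟩
        have := Cong.hecke (exists_perm_T hℓ)
          (isHeckeImg_periodHomPair (fun h => h.charInvolution_T ℂ) _ (hT (ℓ : ℕ) ℓ.2 hℓ)
            (ev p Q f₀) (ev p Q g₀)) (psi_T p hℓ) hQ
        simpa using this
  obtain ⟨γ₀, hγ₀⟩ := exists_psi_eq_one p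
  obtain ⟨m, hm, hm'⟩ := key P γ₀
  have h1 : ev p P = 0 := by rw [ev, hP]; rfl
  rw [h1] at hm
  have h2 : m = 0 := by
    have : ((m : ℤ) : ℂ) = 0 := by
      rw [← hm]
      simp only [LinearMap.zero_apply, Prod.mk_zero_zero, map_zero, AddMonoidHom.zero_apply]
    exact_mod_cast this
  rw [h2, hγ₀, mul_one, Int.cast_zero] at hm'
  exact (ZMod.intCast_zmod_eq_zero_iff_dvd _ _).1 hm'.symm

end

end Fermat.Agent.S16Aux.Lo
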