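import Mathlib
import Fermat.Prelude.Def_CuspForm_HeckeAlgebra
import Fermat.Prelude.Sol.S_ModularForm_heckeT_slash_eq_self_of_mem_Gamma0
import Fermat.Agent.S21.Exists

/-!
# S16 (H1a): Hecke equivariance of the period map
-/

set_option autoImplicit false

open UpperHalfPlane hiding I
open Complex Filter Topology Function CongruenceSubgroup ModularCurve ModularCurve.Period
open Matrix.SpecialLinearGroup
open scoped Manifold Real MatrixGroups ModularForm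
open P2MW.S_ModularForm_heckeT_slash_eq_self_of_mem_Gamma0.ModularForm.HeckeSlashInvariance

namespace Fermat.Agent.S16Aux.Lo

open Fermat.Agent.S21Aux

/-- Chain rule for Möbius transformations of positive determinant (weight 2 slash). -/
theorem hasDerivAt_comp_smul_GL {F φ : ℍ → ℂ}
    (hF : ∀ τ : ℍ, HasDerivAt (F ∘ ofComplex) (φ τ) ↑τ) (g : GL (Fin 2) ℝ)
    (hg : 0 < g.det.val) (τ : ℍ) :
    HasDerivAt ((fun w : ℍ => F (g • w)) ∘ ofComplex) ((φ ∣[(2 : ℤ)] g) τ) ↑τ := by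
  have hg' : 0 < (g : Matrix (Fin 2) (Fin 2) ℝ).det := by
    rwa [Matrix.GeneralLinearGroup.val_det_apply] at hg
  have h0 := hF (g • τ)
  have hτ : ((g • τ : ℍ) : ℂ) = ((g • ofComplex (τ : ℂ) : ℍ) : ℂ) := by rw [ofComplex_apply]
  rw [hτ] at h0
  have h1 := h0.comp (τ : ℂ) (hasStrictDerivAt_smul hg' τ).hasDerivAt
  have h2 : ((F ∘ ofComplex) ∘ fun z : ℂ => ((g • ofComplex z : ℍ) : ℂ)) =
      ((fun w : ℍ => F (g • w)) ∘ ofComplex) := by
    funext z
    simp only [Function.comp_apply, ofComplex_apply]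
  rw [h2] at h1
  refine h1.congr_deriv ?_
  rw [ModularForm.slash_apply, UpperHalfPlane.σ, if_pos hg]
  have hd : denom g τ ≠ 0 := denom_ne_zero g τ
  rw [show (-(2 : ℤ)) = -((2 : ℕ) : ℤ) by norm_num, zpow_neg, zpow_natCast,
    Matrix.GeneralLinearGroup.val_det_apply, abs_of_pos hg']
  simp only [ContinuousAlgEquiv.refl_apply]
  norm_num
  ring

variable {N : ℕ} [NeZero N]

/-- General Hecke equivariance of the period map. -/
theorem periodMap_hecke {ι : Type*} [Fintype ι] (rep : ι → GL (Fin 2) ℝ)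
    (hdet : ∀ i, 0 < (rep i).det.val) (f g : CuspForm (Gamma0 N) 2)
    (hg : ⇑g = ∑ i, ⇑f ∣[(2 : ℤ)] rep i) (γ : Gamma0 N) (σ : Equiv.Perm ι)
    (γ' : ι → Gamma0 N)
    (h : ∀ i, rep i * mapGL ℝ (γ : SL(2, ℤ)) = mapGL ℝ (γ' i : SL(2, ℤ)) * rep (σ i)) :
    periodMap N g (Additive.ofMul γ) = ∑ i, periodMap N f (Additive.ofMul (γ' i)) := by
  set F := prim f with hFdef
  have hF : ∀ τ : ℍ, HasDerivAt (F ∘ ofComplex) (f τ) ↑τ := (prim_spec f).1
  let G : ℍ → ℂ := fun w => ∑ i, F (rep i • w)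
  have hG : ∀ τ : ℍ, HasDerivAt (G ∘ ofComplex) (g τ) ↑τ := by
    intro τ
    have h1 := HasDerivAt.fun_sum (u := Finset.univ)
      (fun i _ => hasDerivAt_comp_smul_GL hF (rep i) (hdet i) τ)
    have h2 : (G ∘ ofComplex) = fun z => ∑ i, ((fun w : ℍ => F (rep i • w)) ∘ ofComplex) z := by
      funext z
      rfl
    rw [h2, hg, Finset.sum_apply]
    exact h1
  set z : ℍ := UpperHalfPlane.I
  have h3 := prim_sub_const hG (prim_spec g).1 ((γ : SL(2, ℤ)) • z) z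
  rw [periodMap_apply g γ z]
  have h4 : prim g ((γ : SL(2, ℤ)) • z) - prim g z = G ((γ : SL(2, ℤ)) • z) - G z := by
    linear_combination -h3
  rw [h4]
  have h5 : ∀ i, rep i • ((γ : SL(2, ℤ)) • z) = (γ' i : SL(2, ℤ)) • (rep (σ i) • z) := by
    intro i
    have e1 : ((γ : SL(2, ℤ)) • z) = mapGL ℝ (γ : SL(2, ℤ)) • z := rfl
    have e2 : (γ' i : SL(2, ℤ)) • (rep (σ i) • z) = mapGL ℝ (γ' i : SL(2, ℤ)) • (rep (σ i) • z) :=
      rfl
    rw [e1, e2, ← mul_smul, ← mul_smul, h i]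
  have h6 : G ((γ : SL(2, ℤ)) • z) = ∑ i, F ((γ' i : SL(2, ℤ)) • (rep (σ i) • z)) :=
    Finset.sum_congr rfl fun i _ => by rw [h5 i]
  have h7 : G z = ∑ i, F (rep (σ i) • z) :=
    (Equiv.sum_comp σ (fun i => F (rep i • z))).symm
  rw [h6, h7, ← Finset.sum_sub_distrib]
  exact Finset.sum_congr rfl fun i _ => (periodMap_apply f (γ' i) _).symm

theorem periodMap_heckeT {ℓ : ℕ} (hℓ : ℓ.Prime) (hℓN : ¬ ℓ ∣ N) (f : CuspForm (Gamma0 N) 2)
    (γ : Gamma0 N) (σ : Equiv.Perm (OnePoint (ZMod ℓ))) [Fintype (OnePoint (ZMod ℓ))]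
    (γ' : OnePoint (ZMod ℓ) → Gamma0 N)
    (h : ∀ i, heckeRep ℓ i * mapGL ℝ (γ : SL(2, ℤ)) = mapGL ℝ (γ' i : SL(2, ℤ)) * heckeRep ℓ (σ i)) :
    periodMap N (CuspForm.heckeTLin 2 hℓ hℓN f) (Additive.ofMul γ)
      = ∑ i, periodMap N f (Additive.ofMul (γ' i)) := by
  have : NeZero ℓ := ⟨hℓ.ne_zero⟩
  refine periodMap_hecke (heckeRep ℓ) (fun x => ?_) f _ ?_ γ σ γ' h
  · induction x using OnePoint.rec with
    | infty => exact ModularForm.det_heckeDiagMatrix_pos ℓ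
    | coe j => exact ModularForm.det_heckeMatrix_pos ℓ _
  · rw [CuspForm.coe_heckeTLin_apply, heckeT_eq_sum_onePoint]
    exact Finset.sum_congr (by ext; simp) fun _ _ => rfl

theorem periodMap_heckeU {q : ℕ} [NeZero q] (hqN : q ∣ N) (f : CuspForm (Gamma0 N) 2)
    (γ : Gamma0 N) (σ : Equiv.Perm (ZMod q)) [Fintype (ZMod q)]
    (γ' : ZMod q → Gamma0 N)
    (h : ∀ i : ZMod q, ModularForm.heckeMatrix q i.val * mapGL ℝ (γ : SL(2, ℤ))
      = mapGL ℝ (γ' i : SL(2, ℤ)) * ModularForm.heckeMatrix q (σ i).val) :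
    periodMap N (CuspForm.heckeULin 2 hqN f) (Additive.ofMul γ)
      = ∑ i, periodMap N f (Additive.ofMul (γ' i)) := by
  refine periodMap_hecke (fun x : ZMod q => ModularForm.heckeMatrix q x.val)
    (fun x => ModularForm.det_heckeMatrix_pos q _) f _ ?_ γ σ γ' h
  rw [CuspForm.coe_heckeULin_apply, heckeU_eq_sum_zmod]
  exact Finset.sum_congr (by ext; simp) fun _ _ => rfl

end Fermat.Agent.S16Aux.Lo
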